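/-
S15 assembly (helper299), part 1: formal properties of the ring `TT N M` generated by the `T_p`.
-/
import Fermat.Agent.S15.Contracts

set_option autoImplicit false

noncomputable section

namespace Fermat.Agent.S15

open ModularCurve Fermat.Agent.S24 Polynomial

variable {N : ℕ} [NeZero N]

/-- the elements of `TT` commute with the Galois action -/
theorem TT_comm_gal (hG : HeckeGalois N) {M : ℕ} (hM : N ∣ M) {t : AddMonoid.End (JZero N)}
    (ht : t ∈ TT N M) (σ : GQ) (x : JZero N) : t (σ • x) = σ • t x := by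
  induction ht using Subring.closure_induction generalizing x with
  | mem t ht =>
    obtain ⟨p, hp, hpM, rfl⟩ := ht
    exact hG p hp (fun h => hpM (h.trans hM)) σ x
  | zero => exact (smul_zero σ).symm
  | one => rfl
  | add a b _ _ ha hb =>
    show a (σ • x) + b (σ • x) = σ • (a x + b x)
    rw [ha, hb, smul_add]
  | neg a _ ha =>
    show -(a (σ • x)) = σ • (-(a x))
    rw [ha, smul_neg]
  | mul a b _ _ ha hb =>
    show a (b (σ • x)) = σ • a (b x)
    rw [hb, ha]

/-- an Eisenstein class is an eigenvector of `TT` -/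
theorem TT_eigen {M : ℕ} (hM : N ∣ M) (c : JZero N)
    (hc : ∀ p : ℕ, p.Prime → ¬ p ∣ N → Tp N p c = (1 + p) • c) {t : AddMonoid.End (JZero N)}
    (ht : t ∈ TT N M) : ∃ d : ℤ, t c = d • c := by
  induction ht using Subring.closure_induction with
  | mem t ht =>
    obtain ⟨p, hp, hpM, rfl⟩ := ht
    exact ⟨((1 + p : ℕ) : ℤ), by rw [hc p hp (fun h => hpM (h.trans hM)), natCast_zsmul]⟩
  | zero => exact ⟨0, by rw [zero_zsmul]; rfl⟩
  | one => exact ⟨1, by rw [one_zsmul]; rfl⟩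
  | add a b _ _ ha hb =>
    obtain ⟨d, hd⟩ := ha
    obtain ⟨d', hd'⟩ := hb
    exact ⟨d + d', by rw [add_zsmul, ← hd, ← hd']; rfl⟩
  | neg a _ ha =>
    obtain ⟨d, hd⟩ := ha
    exact ⟨-d, by rw [neg_zsmul, ← hd]; rfl⟩
  | mul a b _ _ ha hb =>
    obtain ⟨d, hd⟩ := ha
    obtain ⟨d', hd'⟩ := hb
    refine ⟨d' * d, ?_⟩
    show a (b c) = _
    rw [hd', map_zsmul, hd, mul_zsmul]

section Poly

variable {J : Type*} [AddCommGroup J]

/-- polynomials in an element of a subring -/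
theorem aeval_mem_subring (S : Subring (AddMonoid.End J)) {ε : AddMonoid.End J} (hε : ε ∈ S)
    (f : ℤ[X]) : aeval ε f ∈ S := by
  induction f using Polynomial.induction_on' with
  | add p q hp hq => rw [map_add]; exact S.add_mem hp hq
  | monomial n a =>
    rw [aeval_monomial, ← Algebra.smul_def]
    exact S.zsmul_mem (S.pow_mem hε n) a

theorem pow_apply_eigen {ε : AddMonoid.End J} {c : J} {d : ℤ} (h : ε c = d • c) (n : ℕ) :
    (ε ^ n) c = (d ^ n) • c := by
  induction n with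
  | zero => rw [pow_zero, pow_zero, one_zsmul]; rfl
  | succ n ih =>
    rw [pow_succ]
    show (ε ^ n) (ε c) = _
    rw [h, map_zsmul, ih, ← mul_zsmul, pow_succ, mul_comm]

theorem aeval_apply_eigen {ε : AddMonoid.End J} {c : J} {d : ℤ} (h : ε c = d • c) (f : ℤ[X]) :
    (aeval ε f) c = (f.eval d) • c := by
  induction f using Polynomial.induction_on' with
  | add p q hp hq =>
    rw [map_add, eval_add, add_zsmul, ← hp, ← hq]
    rfl
  | monomial n a =>
    rw [aeval_monomial, eval_monomial, ← Algebra.smul_def]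
    show a • ((ε ^ n) c) = _
    rw [pow_apply_eigen h, ← mul_zsmul]

end Poly

/-- `f ≡ X ^ n` modulo `r` and `d ≡ 1` modulo `r` give `f(d) ≡ 1`. -/
theorem not_dvd_eval {r : ℕ} (hr : r.Prime) {f : ℤ[X]}
    (hf : f.map (Int.castRingHom (ZMod r)) = X ^ f.natDegree) {d : ℤ} (hd : (r : ℤ) ∣ d - 1) :
    ¬ (r : ℤ) ∣ f.eval d := by
  have : Fact r.Prime := ⟨hr⟩
  intro h
  have h1 : ((f.eval d : ℤ) : ZMod r) = 0 := (ZMod.intCast_zmod_eq_zero_iff_dvd _ _).2 h
  have h2 : ((f.eval d : ℤ) : ZMod r) = (f.map (Int.castRingHom (ZMod r))).eval ((d : ℤ) : ZMod r) := by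
    rw [eval_map]
    exact (eval₂_at_apply (Int.castRingHom (ZMod r)) d).symm
  have h3 : ((d : ℤ) : ZMod r) = 1 := by
    have := (ZMod.intCast_zmod_eq_zero_iff_dvd (d - 1) r).2 hd
    push_cast at this
    exact sub_eq_zero.1 this
  rw [h2, hf, h3, eval_pow, eval_X, one_pow] at h1
  exact one_ne_zero h1

/-- packaging (generic `J`, so that `aeval` is elaborated once and for all) -/
theorem exists_t_of_poly {J : Type*} [AddCommGroup J] (S : Subring (AddMonoid.End J))
    {ε : AddMonoid.End J} (hε : ε ∈ S) {r : ℕ} (hr : r.Prime) {f : ℤ[X]}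
    (hf : f.map (Int.castRingHom (ZMod r)) = X ^ f.natDegree) {c : J} {d : ℤ} (hd : ε c = d • c)
    (hd1 : (r : ℤ) ∣ d - 1) (Q : J → Prop)
    (hQ : ∀ P, Q P → ∃ k : ℕ, 0 < k ∧ k • (aeval ε f) P = 0) :
    ∃ t ∈ S, ∃ d' : ℤ, t c = d' • c ∧ ¬ (r : ℤ) ∣ d' ∧ ∀ P, Q P → ∃ m : ℕ, 0 < m ∧ m • t P = 0 :=
  ⟨aeval ε f, aeval_mem_subring S hε f, f.eval d, aeval_apply_eigen hd f, not_dvd_eval hr hf hd1,
    hQ⟩

end Fermat.Agent.S15

end
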