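/-
S15 assembly (helper299), part 2: the Weil pairing on `J₀(N)[r]` (ℕ-multiples), isotropy of generated
subgroups, and the `FL` functions attached to the Kummer cocycles.
-/
import Fermat.Agent.S15.Abstract
import Fermat.Agent.S15.LocN.WeilAux
import Fermat.Agent.S19.Loc.Calc
import Fermat.Agent.S19.Glue.Defs

set_option autoImplicit false

noncomputable section

namespace Fermat.Agent.S15

open ModularCurve AlgebraicCurve Fermat.Agent.S24 Fermat.Agent.S19.Weil Fermat.Agent.S15.LocN

variable {N : ℕ} [NeZero N]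

instance instIsFF1FN : FF.IsFF1 Kbar (FN N) := Fermat.Agent.S24.Export.isFF1 N

instance instNonConstFN : Fermat.Agent.S27.NonConst Kbar (FN N) :=
  ⟨⟨jF N, Formal.transcendental_jF N⟩⟩

omit [NeZero N] in
theorem zs {r : ℕ} {x : JZero N} (h : r • x = 0) : (r : ℤ) • x = 0 := by
  rw [natCast_zsmul]; exact h

omit [NeZero N] in
theorem gal_nsmul' (σ : GQ) (k : ℕ) (x : JZero N) : σ • (k • x) = k • (σ • x) :=
  (DistribSMul.toAddMonoidHom (JZero N) σ).map_nsmul k x

theorem gal_tors {r : ℕ} {x : JZero N} (h : r • x = 0) (σ : GQ) : r • (σ • x) = 0 := by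
  rw [← gal_nsmul', h]
  exact (DistribSMul.toAddMonoidHom (JZero N) σ).map_zero

theorem weilJ_gal {r : ℕ} (hr : 0 < r) (σ : GQ) {x y : JZero N} (hx : r • x = 0) (hy : r • y = 0) :
    weil r (σ • x) (σ • y) = σ (weil r x y) :=
  weil_smul hr (Fermat.Agent.S19.Glue.gal N σ) (zs hx) (zs hy)

/-- the values of a Kummer cocycle are killed by `r` -/
theorem kummer_tors {r : ℕ} {R : JZero N} (hR : IsDivPt N r R) (σ : GQ) :
    r • (σ • R - R) = 0 := by
  rw [nsmul_sub, ← gal_nsmul', hR σ, sub_self]

/-- isotropy passes to the generated subgroup -/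
theorem isotropic_closure {r : ℕ} (hr : 0 < r) (S : Set (JZero N)) (hS : ∀ x ∈ S, r • x = 0)
    (h : ∀ x ∈ S, ∀ y ∈ S, weil r x y = 1) :
    ∀ x ∈ AddSubgroup.closure S, ∀ y ∈ AddSubgroup.closure S, weil r x y = 1 := by
  have tors : ∀ x ∈ AddSubgroup.closure S, r • x = 0 := by
    intro x hx
    induction hx using AddSubgroup.closure_induction with
    | mem x hx => exact hS x hx
    | zero => exact nsmul_zero r
    | add a b _ _ ha hb => rw [nsmul_add, ha, hb, add_zero]
    | neg a _ ha => rw [neg_nsmul, ha, neg_zero]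
  have step : ∀ x ∈ AddSubgroup.closure S, ∀ y ∈ S, weil r x y = 1 := by
    intro x hx y hy
    induction hx using AddSubgroup.closure_induction with
    | mem x hx => exact h x hx y hy
    | zero => exact weil_zero_left hr (zs (hS y hy))
    | add a b ha' hb' ha hb =>
      rw [weil_add_left hr (zs (tors a ha')) (zs (tors b hb')) (zs (hS y hy)), ha, hb, one_mul]
    | neg a ha' ha => rw [weil_neg_left hr (zs (tors a ha')) (zs (hS y hy)), ha, inv_one]
  intro x hx y hy
  induction hy using AddSubgroup.closure_induction with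
  | mem y hy => exact step x hx y hy
  | zero => exact weil_zero_right hr (zs (tors x hx))
  | add a b ha' hb' ha hb =>
    rw [weil_add_right hr (zs (tors x hx)) (zs (tors a ha')) (zs (tors b hb')), ha, hb, one_mul]
  | neg a ha' ha => rw [weil_neg_right hr (zs (tors x hx)) (zs (tors a ha')), ha, inv_one]

/-- **FL, starred form**: `s ↦ s (e_r (s⁻¹ R - R, w))` lies in `S_I`. -/
theorem isSI_star {r : ℕ} (hr : 0 < r) (hFL : LocFL N r) {A : ValuationSubring Kbar}
    (hA : A.LiesOverPrime r) {R : JZero N} (hR : IsDivPt N r R) {w : JZero N} (hw : r • w = 0) :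
    Fermat.Agent.S19.IsSI A (fun s : GQ => s (weil r (s⁻¹ • R - R) w)) := by
  refine ((hFL A hA R hR w hw).pow (r - 1)).congr fun σ _ => ?_
  have h1 : σ • (σ⁻¹ • R - R) = -(σ • R - R) := by
    rw [smul_sub, smul_inv_smul, neg_sub]
  have hx := kummer_tors hR σ
  have hσw := gal_tors hw σ
  rw [← weilJ_gal hr σ (kummer_tors hR σ⁻¹) hw, h1, weil_neg_left hr (zs hx) (zs hσw)]
  have h2 := weil_pow_eq_one hr (zs hx) (zs hσw)
  have h0 := weil_ne_zero (K := Kbar) (F := FN N) hr (σ • R - R) (σ • w)
  symm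
  apply eq_inv_of_mul_eq_one_left
  rw [← pow_succ, Nat.sub_add_cancel hr, h2]

end Fermat.Agent.S15

end
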