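/-
S15 assembly (helper299), part 3: the Selmer datum of the Eisenstein Kummer cocycles and the count
`|𝒞| ≤ |G|`.
-/
import Fermat.Agent.S15.Asm.Hecke
import Fermat.Agent.S15.Asm.Weil
import Fermat.Agent.S15.Sel.Main
import Fermat.Agent.S15.Sel.Inst
import Fermat.Agent.S15.Sel.Adm.Chain
import Fermat.Agent.S15.Sel.Fin
import Fermat.Agent.S15.Oo.Main
import Fermat.Agent.S17.W.Div
import Fermat.Agent.S19.BaseRing

set_option autoImplicit false

noncomputable section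

namespace Fermat.Agent.S15

open ModularCurve AlgebraicCurve Fermat.Agent.S24 Fermat.Agent.S19.Weil Fermat.Agent.S15.LocN
  Fermat.Agent.S15.Sel Fermat.Agent.S15.Q

variable {N : ℕ} [NeZero N]

/-- a choice of places -/
theorem nonempty_places : Nonempty Places := by
  classical
  have h : ∀ ℓ : ℕ, ∃ A : ValuationSubring Kbar, ℓ.Prime → A.LiesOverPrime ℓ := by
    intro ℓ
    by_cases hℓ : ℓ.Prime
    · have : Fact ℓ.Prime := ⟨hℓ⟩
      obtain ⟨A, hA⟩ := Fermat.Agent.S19.exists_liesOverPrime ℓ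
      exact ⟨A, fun _ => hA⟩
    · exact ⟨⊤, fun h => absurd h hℓ⟩
  choose pl hpl using h
  exact ⟨⟨pl, hpl⟩⟩

theorem eis_tors {r : ℕ} {x : JZero N} (hx : x ∈ Eis N r) : r • x = 0 := hx.1

theorem finite_eis {r : ℕ} (hr : 0 < r) : ((Eis N r : AddSubgroup (JZero N)) : Set (JZero N)).Finite :=
  (Fermat.Agent.S17.W.finite_torsion_JZero N r hr).subset fun _ hx => hx.1

/-- the data common to all the cases -/
structure Setup (N : ℕ) [NeZero N] (r : ℕ) (ε : AddMonoid.End (JZero N)) : Prop where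
  hr : r.Prime
  hN : N.Prime
  hrN : r ≠ N
  comm : ∀ (σ : GQ) (x : JZero N), ε (σ • x) = σ • ε x
  toEis : ∀ x : JZero N, r • x = 0 → ε x ∈ Eis N r
  onEis : ∀ x ∈ Eis N r, ε x = x

namespace Setup

variable {r : ℕ} {ε : AddMonoid.End (JZero N)} (S : Setup N r ε)

include S

theorem isDivPt {R : JZero N} (hR : r • R ∈ fixedPts GQ (JZero N)) : IsDivPt N r (ε R) := by
  intro σ
  rw [← map_nsmul, ← S.comm]
  exact congrArg ε (hR σ)

theorem kum_eq (R : JZero N) (σ : GQ) : kum ε R σ = σ • ε R - ε R := rfl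

theorem kum_mem {R : JZero N} (hR : r • R ∈ fixedPts GQ (JZero N)) (σ : GQ) :
    kum ε R σ ∈ Eis N r := by
  have h1 : kum ε R σ = ε (σ • R - R) := by rw [kum_eq S, map_sub, S.comm]
  rw [h1]
  refine S.toEis _ ?_
  have h2 : σ • (r • R) = r • R := hR σ
  rw [nsmul_sub, ← gal_nsmul', h2, sub_self]

theorem stable (σ : GQ) {x : JZero N} (hx : x ∈ Eis N r) : σ • x ∈ Eis N r := by
  rw [← S.onEis x hx, ← S.comm]
  exact S.toEis _ (gal_tors hx.1 σ)

/-- the toric subgroup: generated by the values of the cocycles on the inertia group at `N` -/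
def torN (_S : Setup N r ε) (A : ValuationSubring Kbar) : AddSubgroup (JZero N) :=
  AddSubgroup.closure {x | ∃ R : JZero N, r • R ∈ fixedPts GQ (JZero N) ∧
    ∃ τ ∈ A.inertiaSubgroupIn ℚ, x = kum ε R τ}

theorem torN_le (A : ValuationSubring Kbar) : S.torN A ≤ Eis N r := by
  refine (AddSubgroup.closure_le _).2 ?_
  rintro _ ⟨R, hR, τ, -, rfl⟩
  exact S.kum_mem hR τ

theorem torN_isotropic (hLN : LocN N r) {A : ValuationSubring Kbar} (hA : A.LiesOverPrime N) :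
    ∀ x ∈ S.torN A, ∀ y ∈ S.torN A, weil r x y = 1 := by
  refine isotropic_closure S.hr.pos _ ?_ ?_
  · rintro _ ⟨R, hR, τ, -, rfl⟩
    exact (S.kum_mem hR τ).1
  · rintro _ ⟨R, hR, τ, hτ, rfl⟩ _ ⟨R', hR', τ', hτ', rfl⟩
    exact hLN A hA τ hτ τ' hτ' (ε R) (ε R') (S.isDivPt hR) (S.isDivPt hR')

/-- the subgroup at infinity -/
def torInf (_S : Setup N r ε) : AddSubgroup (JZero N) :=
  AddSubgroup.closure {x | ∃ R : JZero N, r • R ∈ fixedPts GQ (JZero N) ∧
    x = kum ε R complexConjugation}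

theorem torInf_le : S.torInf ≤ Eis N r := by
  refine (AddSubgroup.closure_le _).2 ?_
  rintro _ ⟨R, hR, rfl⟩
  exact S.kum_mem hR _

theorem torInf_isotropic (hr2 : r = 2) (hLI : LocInf N) :
    ∀ x ∈ S.torInf, ∀ y ∈ S.torInf, weil r x y = 1 := by
  refine isotropic_closure S.hr.pos _ ?_ ?_
  · rintro _ ⟨R, hR, rfl⟩
    exact (S.kum_mem hR _).1
  · rintro _ ⟨R, hR, rfl⟩ _ ⟨R', hR', rfl⟩
    have h1 := S.isDivPt hR
    have h2 := S.isDivPt hR'
    subst hr2
    exact hLI (ε R) (ε R') h1 h2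

/-- the pairing on `G`: the hypotheses of the abstract statements -/
theorem e_add_left : ∀ x ∈ Eis N r, ∀ x' ∈ Eis N r, ∀ y ∈ Eis N r,
    weil r (x + x') y = weil r x y * weil r x' y :=
  fun _ hx _ hx' _ hy => weil_add_left S.hr.pos (zs hx.1) (zs hx'.1) (zs hy.1)

theorem e_add_right : ∀ x ∈ Eis N r, ∀ y ∈ Eis N r, ∀ y' ∈ Eis N r,
    weil r x (y + y') = weil r x y * weil r x y' :=
  fun _ hx _ hy _ hy' => weil_add_right S.hr.pos (zs hx.1) (zs hy.1) (zs hy'.1)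

theorem e_ne_zero : ∀ x ∈ Eis N r, ∀ y ∈ Eis N r, weil r x y ≠ 0 :=
  fun x _ y _ => weil_ne_zero S.hr.pos x y

theorem e_nondeg_right (hND : WeilNondegEis N r) :
    ∀ y ∈ Eis N r, y ≠ 0 → ∃ x ∈ Eis N r, weil r x y ≠ 1 := by
  intro y hy hy0
  obtain ⟨x, hx, h⟩ := hND y hy hy0
  refine ⟨x, hx, fun h1 => h ?_⟩
  rw [weil_swap S.hr.pos (zs hx.1) (zs hy.1), h1, inv_one]

theorem e_gal : ∀ σ : GQ, ∀ x ∈ Eis N r, ∀ y ∈ Eis N r, weil r (σ • x) (σ • y) = σ (weil r x y) :=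
  fun σ _ hx _ hy => weilJ_gal S.hr.pos σ hx.1 hy.1

/-- the starred function of a character composed with a Kummer cocycle is in `S_I` -/
theorem isSI_char (hFL : LocFL N r) (hND : WeilNondegEis N r) (hCP : CharIsPairing)
    {A : ValuationSubring Kbar} (hA : A.LiesOverPrime r) {R : JZero N}
    (hR : r • R ∈ fixedPts GQ (JZero N)) {lam : JZero N → Kbar} (hlam : IsChar r (Eis N r) lam) :
    Fermat.Agent.S19.IsSI A (fun s : GQ => s (lam (kum ε R s⁻¹))) := by
  obtain ⟨w, hw, h⟩ := hCP (JZero N) (Eis N r) (weil r) r S.hr.pos (finite_eis S.hr.pos)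
    (fun _ hx => hx.1) S.e_add_left S.e_add_right S.e_ne_zero (S.e_nondeg_right hND) lam hlam
  refine (isSI_star S.hr.pos hFL hA (S.isDivPt hR) hw.1).congr fun σ _ => ?_
  rw [h _ (S.kum_mem hR σ⁻¹)]
  rfl

theorem lam_zero {lam : JZero N → Kbar} (hlam : IsChar r (Eis N r) lam) : lam 0 = 1 := by
  have h1 := hlam.1 0 (Eis N r).zero_mem 0 (Eis N r).zero_mem
  have h2 := hlam.2 0 (Eis N r).zero_mem
  rw [add_zero] at h1
  have h0 : lam 0 ≠ 0 := by
    intro h0
    rw [h0, zero_pow S.hr.ne_zero] at h2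
    exact zero_ne_one h2
  exact (mul_eq_left₀ h0).1 h1.symm

/-- (F2) for the cocycles -/
theorem valDvd_char (hFL : LocFL N r) (hND : WeilNondegEis N r) (hCP : CharIsPairing)
    (hF2 : F2Statement) {A : ValuationSubring Kbar} (hA : A.LiesOverPrime r) {R : JZero N}
    (hR : r • R ∈ fixedPts GQ (JZero N)) {lam : JZero N → Kbar} (hlam : IsChar r (Eis N r) lam)
    (hcoc : IsCoc (fun σ => lam (kum ε R σ))) : ValDvd r r (fun σ => lam (kum ε R σ)) := by
  intro b a ha hab hb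
  refine hF2 r S.hr A hA a ha b hab.symm ?_
  refine (S.isSI_char hFL hND hCP hA hR hlam).congr fun σ _ => ?_
  have hb0 : b ≠ 0 := by
    rintro rfl
    rw [zero_pow S.hr.ne_zero] at hab
    exact ha ((map_eq_zero _).1 hab)
  have h1 : lam (kum ε R (σ * σ⁻¹)) = lam (kum ε R σ) * σ (lam (kum ε R σ⁻¹)) := hcoc σ σ⁻¹
  have h2 : kum ε R (σ * σ⁻¹) = 0 := by
    rw [mul_inv_cancel, S.kum_eq, one_smul, sub_self]
  rw [h2, S.lam_zero hlam] at h1
  rw [hb σ]
  have h3 : lam (kum ε R σ) ≠ 0 := by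
    intro h
    rw [h, zero_mul] at h1
    exact one_ne_zero h1
  field_simp
  rw [h1, mul_comm]

end Setup

end Fermat.Agent.S15

end
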