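/-
S15 assembly (helper299), part 4: `SelData` for the Eisenstein Kummer cocycles and `|𝒞| ≤ |G|`.
-/
import Fermat.Agent.S15.Asm.Sel

set_option autoImplicit false

noncomputable section

namespace Fermat.Agent.S15

open ModularCurve AlgebraicCurve Fermat.Agent.S24 Fermat.Agent.S19.Weil Fermat.Agent.S15.LocN
  Fermat.Agent.S15.Sel Fermat.Agent.S15.Q

variable {N : ℕ} [NeZero N]

/-- all the inputs of the count -/
structure Inputs (N : ℕ) [NeZero N] (r : ℕ) : Prop where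
  openStab : OpenStab N
  locL : LocL N r
  locN : LocN N r
  locFL : LocFL N r
  locInf : LocInf N
  adm : AdmEis N r
  nondeg : WeilNondegEis N r
  isoBound : IsotropicBound
  charPair : CharIsPairing
  eigenIso : EigenIsotropic
  f1 : F1Statement
  f2 : F2Statement

namespace Setup

variable {r : ℕ} {ε : AddMonoid.End (JZero N)} (S : Setup N r ε) (I : Inputs N r)

include S I

theorem selData (𝔄 : Places) (ζ : Kbar) (Et : (GQ → Kbar) → Prop) (X0 : AddSubgroup (JZero N))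
    (hx0 : X0 ≤ Eis N r)
    (typ : r ≠ 2 → ∃ (σ₀ : GQ) (k n : ℕ), σ₀ ζ = ζ ^ k ∧ ζ ^ k ≠ ζ ∧
      (∀ g ∈ Eis N r, (fun x : JZero N => σ₀ • x - x)^[n] g ∈ X0) ∧
      (∀ g ∈ X0, (fun x : JZero N => σ₀ • x - k • x)^[n] g = 0))
    (etc : ∀ c ∈ kumGroup GQ r ε, ∀ lam : JZero N → Kbar, IsChar r (Eis N r) lam →
      (∀ x ∈ X0, lam x = 1) → IsHom (fun σ => lam (c σ)) → Et (fun σ => lam (c σ))) :
    SelData r N 𝔄 ζ Et (Eis N r) (S.torN (𝔄.pl N)) X0 (kumGroup GQ r ε) where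
  gtors := fun _ hg => hg.1
  x0le := hx0
  val := by
    rintro _ ⟨R, hR, rfl⟩ σ
    exact S.kum_mem hR σ
  coc := by
    rintro _ ⟨R, hR, rfl⟩ σ τ
    rw [S.kum_eq, S.kum_eq, S.kum_eq, mul_smul, smul_sub]
    abel
  fin := by
    rintro _ ⟨R, hR, rfl⟩
    obtain ⟨L, hL, h⟩ := I.openStab (ε R)
    refine ⟨L, hL, fun σ hσ => ?_⟩
    rw [S.kum_eq, h σ ((IntermediateField.mem_fixingSubgroup_iff L σ).2 hσ), sub_self]
  unr := by
    rintro _ ⟨R, hR, rfl⟩ ℓ hℓ hℓr hℓN τ hτ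
    have hdvd : ¬ ℓ ∣ N * r := by
      intro h
      rcases (Nat.Prime.dvd_mul hℓ).1 h with h | h
      · exact hℓN ((Nat.prime_dvd_prime_iff_eq hℓ S.hN).1 h)
      · exact hℓr ((Nat.prime_dvd_prime_iff_eq hℓ S.hr).1 h)
    rw [S.kum_eq, I.locL ℓ hℓ hdvd (𝔄.pl ℓ) (𝔄.liesOver ℓ hℓ) τ hτ (ε R) (S.isDivPt hR), sub_self]
  atN := by
    rintro _ ⟨R, hR, rfl⟩ τ hτ
    exact AddSubgroup.subset_closure ⟨R, hR, τ, hτ, rfl⟩
  typ := typ
  etc := etc
  zc := by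
    rintro _ ⟨R, hR, rfl⟩ lam hlam hcoc
    exact S.valDvd_char I.locFL I.nondeg I.charPair I.f2 (𝔄.liesOver r S.hr) hR hlam hcoc

theorem card_mul_le {X Y : AddSubgroup (JZero N)} (hX : X ≤ Eis N r) (hY : Y ≤ Eis N r)
    (hXi : ∀ x ∈ X, ∀ y ∈ X, weil r x y = 1) (hYi : ∀ x ∈ Y, ∀ y ∈ Y, weil r x y = 1) :
    Nat.card X * Nat.card Y ≤ Nat.card (Eis N r) := by
  have h1 := I.isoBound (JZero N) (Eis N r) X (weil r) (finite_eis S.hr.pos) hX S.e_add_left
    S.e_add_right S.e_ne_zero I.nondeg hXi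
  have h2 := I.isoBound (JZero N) (Eis N r) Y (weil r) (finite_eis S.hr.pos) hY S.e_add_left
    S.e_add_right S.e_ne_zero I.nondeg hYi
  have h3 : (Nat.card X * Nat.card Y) * (Nat.card X * Nat.card Y) ≤
      Nat.card (Eis N r) * Nat.card (Eis N r) := by
    calc (Nat.card X * Nat.card Y) * (Nat.card X * Nat.card Y)
        = (Nat.card X * Nat.card X) * (Nat.card Y * Nat.card Y) := by ring
      _ ≤ _ := Nat.mul_le_mul h1 h2
  exact Nat.mul_self_le_mul_self_iff.1 h3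

theorem finite_of_le {X : AddSubgroup (JZero N)} (hX : X ≤ Eis N r) : Finite X :=
  ((finite_eis S.hr.pos).subset hX).to_subtype

theorem chain (ζ : Kbar) (hζ : IsPrimitiveRoot ζ r) : Chain r ⊥ (Eis N r) := by
  have : Finite (Eis N r) := (finite_eis S.hr.pos).to_subtype
  exact chain_of_nilCond r S.hr ζ hζ (Eis N r) (fun _ hg => hg.1) (fun σ _ hg => S.stable σ hg)
    (I.adm ζ hζ)

/-- the count, `r` odd -/
theorem count_odd (hr2 : r ≠ 2) :
    Finite (kumGroup GQ r ε) ∧ Nat.card (kumGroup GQ r ε) ≤ Nat.card (Eis N r) := by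
  obtain ⟨𝔄⟩ := nonempty_places
  have : NeZero r := ⟨S.hr.ne_zero⟩
  obtain ⟨ζ, hζ⟩ := HasEnoughRootsOfUnity.exists_primitiveRoot Kbar r
  obtain ⟨σ₀, -, hmove⟩ := exists_inertia_moving (𝔄.pl r) r S.hr hr2 (𝔄.liesOver r S.hr) ζ hζ
  have hpow : (σ₀ ζ) ^ r = 1 := by rw [← map_pow, hζ.pow_eq_one, map_one]
  obtain ⟨k, -, hk⟩ := hζ.eq_pow_of_pow_eq_one hpow
  obtain ⟨n, hn⟩ := I.adm ζ hζ σ₀ k hk.symm
  have htyp := typ_of_nilCond ζ (Eis N r) (fun σ _ hg => S.stable σ hg) σ₀ k n hn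
  set X0 := genEigen (Eis N r) σ₀ k n with hX0
  have hx0 : X0 ≤ Eis N r := inf_le_left
  have D : SelData r N 𝔄 ζ (UnrAt (𝔄.pl r)) (Eis N r) (S.torN (𝔄.pl N)) X0 (kumGroup GQ r ε) := by
    refine S.selData I 𝔄 ζ _ X0 hx0 (fun _ => ⟨σ₀, k, n, hk.symm, by rw [hk]; exact hmove,
      htyp.1, htyp.2⟩) ?_
    rintro _ ⟨R, hR, rfl⟩ lam hlam - hhom
    exact I.f1 r S.hr hr2 (𝔄.pl r) (𝔄.liesOver r S.hr) _ hhom
      (fun σ => hlam.2 _ (S.kum_mem hR σ))
      (S.isSI_char I.locFL I.nondeg I.charPair (𝔄.liesOver r S.hr) hR hlam)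
  have f1 : Finite (S.torN (𝔄.pl N)) := S.finite_of_le I (S.torN_le _)
  have f2 : Finite X0 := S.finite_of_le I hx0
  obtain ⟨hfin, hcard⟩ := card_le S.hr S.hN S.hrN hζ D (etBound_unr r N S.hr S.hN S.hrN 𝔄)
    (S.chain I ζ hζ)
  refine ⟨hfin, hcard.trans (S.card_mul_le I (S.torN_le _) hx0
    (S.torN_isotropic I.locN (𝔄.liesOver N S.hN)) ?_)⟩
  intro x hx y hy
  have hx' := (mem_genEigen _ _ _ _ _).1 hx
  have hy' := (mem_genEigen _ _ _ _ _).1 hy
  exact I.eigenIso (JZero N) (Eis N r) (weil r) r S.hr (fun _ h => h.1)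
    (fun σ _ hg => S.stable σ hg) S.e_add_left S.e_add_right S.e_ne_zero S.e_gal ζ hζ σ₀ k n
    hk.symm (by rw [hk]; exact hmove) x hx'.1 y hy'.1 hx'.2 hy'.2

/-- the count, `r = 2` -/
theorem count_two (hr2 : r = 2) :
    Finite (kumGroup GQ r ε) ∧ Nat.card (kumGroup GQ r ε) ≤ Nat.card (Eis N r) := by
  subst hr2
  obtain ⟨𝔄⟩ := nonempty_places
  obtain ⟨ζ, hζ⟩ := HasEnoughRootsOfUnity.exists_primitiveRoot Kbar 2
  have hc : ∀ x : Kbar, x ^ 2 = -1 → complexConjugation x ≠ x := by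
    intro x hx h
    have h1 := Oo.complexConjugation_sqrt_of_neg (a := -1) (by norm_num) (s := x)
      (by rw [hx, map_neg, map_one])
    rw [h] at h1
    have h2 : x = 0 := by
      have : (2 : Kbar) * x = 0 := by linear_combination h1
      rcases mul_eq_zero.1 this with h | h
      · exact absurd h two_ne_zero
      · exact h
    rw [h2] at hx
    norm_num at hx
  have hcN : ∀ x : Kbar, x ^ 2 = (N : Kbar) → complexConjugation x = x := by
    intro x hx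
    exact Oo.complexConjugation_sqrt_of_pos (a := (N : ℚ)) (by exact_mod_cast S.hN.pos)
      (by rw [hx, map_natCast])
  have hx0 : S.torInf ≤ Eis N 2 := S.torInf_le
  have D : SelData 2 N 𝔄 ζ (fun h => ValDvd 2 2 h ∧ h complexConjugation = 1) (Eis N 2)
      (S.torN (𝔄.pl N)) S.torInf (kumGroup GQ 2 ε) := by
    refine S.selData I 𝔄 ζ _ S.torInf hx0 (fun h => absurd rfl h) ?_
    rintro _ ⟨R, hR, rfl⟩ lam hlam htriv hhom
    refine ⟨S.valDvd_char I.locFL I.nondeg I.charPair I.f2 (𝔄.liesOver 2 S.hr) hR hlam ?_,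
      htriv _ (AddSubgroup.subset_closure ⟨R, hR, rfl⟩)⟩
    intro σ τ
    have h1 : lam (kum ε R (σ * τ)) = lam (kum ε R σ) * lam (kum ε R τ) := hhom σ τ
    show lam (kum ε R (σ * τ)) = lam (kum ε R σ) * σ (lam (kum ε R τ))
    rw [h1]
    rcases sq_eq_one_iff.1 (hlam.2 _ (S.kum_mem hR τ)) with h | h <;> rw [h] <;> simp
  have f1 : Finite (S.torN (𝔄.pl N)) := S.finite_of_le I (S.torN_le _)
  have f2 : Finite S.torInf := S.finite_of_le I hx0
  obtain ⟨hfin, hcard⟩ := card_le S.hr S.hN S.hrN hζ D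
    (etBound_real N S.hN 𝔄 complexConjugation hc hcN) (S.chain I ζ hζ)
  exact ⟨hfin, hcard.trans (S.card_mul_le I (S.torN_le _) hx0
    (S.torN_isotropic I.locN (𝔄.liesOver N S.hN)) (S.torInf_isotropic rfl I.locInf))⟩

/-- **the Selmer count** -/
theorem count :
    Finite (kumGroup GQ r ε) ∧ Nat.card (kumGroup GQ r ε) ≤ Nat.card (Eis N r) := by
  by_cases hr2 : r = 2
  · exact S.count_two I hr2
  · exact S.count_odd I hr2

end Setup

end Fermat.Agent.S15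

end
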